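/-
S56, wall W3c (helper89, for helper25): the place `primeLocalPlace (pPrime p)` of `ℚ̄`
(the preimage of the unit ball of `PadicAlgCl p` under `padicEmbedding p`) lies over `p`.
Light imports (Prelude + Mathlib only).
-/
import Mathlib
import Fermat.Prelude.Def_GaloisRep_CompletionBridge
import Fermat.Prelude.Def_ExtEndgame_ProductionDatum

set_option autoImplicit false

namespace Fermat.Agent.S56.SO

open ExtCitation

/-- The norm of `q` in `PadicAlgCl q` is `q⁻¹`. -/
theorem so_norm_natCast_self (q : ℕ) [Fact q.Prime] :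
    ‖((q : ℕ) : PadicAlgCl q)‖ = ((q : ℝ))⁻¹ := by
  have h2 : ‖((q : ℕ) : PadicAlgCl q)‖ = ‖((q : ℕ) : ℚ_[q])‖ := by
    rw [← PadicAlgCl.norm_extends]
    congr 1
  rw [h2, Padic.norm_p]

/-- `padicPlace q` lies over `q`. -/
theorem so_padicPlace_liesOver (q : ℕ) [Fact q.Prime] : (padicPlace q).LiesOverPrime q := by
  have hq : q.Prime := Fact.out
  have hq1 : (1 : ℝ) < q := by exact_mod_cast hq.one_lt
  have hq0 : ((q : ℕ) : AlgebraicClosure ℚ) ≠ 0 := by exact_mod_cast hq.ne_zero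
  show ((q : ℕ) : AlgebraicClosure ℚ) ∈ (padicPlace q).nonunits
  rw [ValuationSubring.mem_nonunits_iff]
  by_contra hcon
  have h5 : 1 ≤ (padicPlace q).valuation ((q : ℕ) : AlgebraicClosure ℚ) := not_lt.1 hcon
  have h4 : (padicPlace q).valuation ((q : ℕ) : AlgebraicClosure ℚ) ≠ 0 :=
    (Valuation.ne_zero_iff _).2 hq0
  have h3 : (padicPlace q).valuation ((q : ℕ) : AlgebraicClosure ℚ)⁻¹ ≤ 1 := by
    rw [map_inv₀]
    exact (inv_le_one₀ (zero_lt_iff.2 h4)).2 h5
  have h2 : ((q : ℕ) : AlgebraicClosure ℚ)⁻¹ ∈ padicPlace q :=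
    (ValuationSubring.valuation_le_one_iff _ _).1 h3
  have h1 : ‖padicEmbedding q (((q : ℕ) : AlgebraicClosure ℚ)⁻¹)‖ ≤ 1 := by
    have := (mem_padicPlace_iff q).1 h2
    exact_mod_cast this
  rw [map_inv₀, map_natCast, norm_inv, so_norm_natCast_self, inv_inv] at h1
  exact absurd h1 (not_le.2 hq1)

/-- **The place of the local group at `p` lies over `p`.** -/
theorem so_liesOver (p : ℕ) [Fact p.Prime] : (primeLocalPlace (pPrime p)).LiesOverPrime p :=
  so_padicPlace_liesOver p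

end Fermat.Agent.S56.SO
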