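/-
S56, wall W3c, seat SO-K2 (helper46): `ℚ_p^× / (ℚ_p^×)^p` has at most `p²` elements.  Statement FIXED.

Proof.  `x = p^v · u`, `u ∈ ℤ_p^×`.  Then `u^(p-1) = 1 + p b` (Fermat in the residue field), and the
class of `x` modulo `p`-th powers is determined by `v mod p` and `b mod p`:  if both agree for `x`, `y`
then `w = u_x / u_y` satisfies `w^(p-1) ≡ 1 mod p²`, so `w^(p-1) = Z^p` (Hensel for `X^p - W` at
`1 + p a`, `W = 1 + p² a`, using `(1 + p a)^p ≡ 1 + p² a mod p³` for `p` odd), and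
`w = w^p / w^(p-1) = (w / Z)^p`.  Mathlib only.
-/
import Mathlib

set_option autoImplicit false

namespace Fermat.Agent.S56.SO

open Polynomial

/-- Binomial expansion up to order three. -/
private lemma padicPow_expand {R : Type*} [CommRing R] (t : R) (n : ℕ) :
    ∃ r : R, (1 + t) ^ n = 1 + n * t + (n.choose 2 : R) * t ^ 2 + t ^ 3 * r := by
  induction n with
  | zero => exact ⟨0, by simp⟩
  | succ n ih =>
    obtain ⟨r, hr⟩ := ih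
    refine ⟨(n.choose 2 : R) + r + t * r, ?_⟩
    have hc : (((n + 1).choose 2 : ℕ) : R) = (n : R) + (n.choose 2 : R) := by
      have : (n + 1).choose 2 = n + n.choose 2 := by
        rw [Nat.choose_succ_succ' n 1, Nat.choose_one_right]
      rw [this]; push_cast; ring
    rw [pow_succ, hr, hc]; push_cast; ring

/-- Elements of `1 + p² ℤ_p` are `p`-th powers (`p` odd). -/
private lemma padicPow_hensel (p : ℕ) [Fact p.Prime] (hp2 : p ≠ 2) (a : ℤ_[p]) :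
    ∃ Z : ℤ_[p], Z ^ p = 1 + (p : ℤ_[p]) ^ 2 * a := by
  have hp : p.Prime := Fact.out
  have hp3 : 2 < p := lt_of_le_of_ne hp.two_le (Ne.symm hp2)
  obtain ⟨m, hm⟩ : p ∣ p.choose 2 := hp.dvd_choose_self (by norm_num) hp3
  obtain ⟨r, hr⟩ := padicPow_expand ((p : ℤ_[p]) * a) p
  set W : ℤ_[p] := 1 + (p : ℤ_[p]) ^ 2 * a with hW
  set x₀ : ℤ_[p] := 1 + (p : ℤ_[p]) * a with hx₀
  have hval : x₀ ^ p - W = (p : ℤ_[p]) ^ 3 * ((m : ℤ_[p]) * a ^ 2 + a ^ 3 * r) := by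
    rw [hr, hm, hW]; push_cast; ring
  have hpn : ‖(p : ℤ_[p])‖ = (p : ℝ)⁻¹ := PadicInt.norm_p
  have hp1 : (1 : ℝ) < p := by exact_mod_cast hp.one_lt
  have hpinv0 : (0 : ℝ) < (p : ℝ)⁻¹ := by positivity
  have hpinv1 : (p : ℝ)⁻¹ < 1 := inv_lt_one_of_one_lt₀ hp1
  have hx₀n : ‖x₀‖ = 1 := by
    have h1 : ‖(p : ℤ_[p]) * a‖ < 1 := by
      rw [norm_mul, hpn]
      calc (p : ℝ)⁻¹ * ‖a‖ ≤ (p : ℝ)⁻¹ * 1 :=
            mul_le_mul_of_nonneg_left (PadicInt.norm_le_one a) hpinv0.le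
        _ < 1 := by simpa using hpinv1
    have h2 : ‖(1 : ℤ_[p])‖ ≠ ‖(p : ℤ_[p]) * a‖ := by
      rw [norm_one]; exact (ne_of_lt h1).symm
    rw [hx₀, PadicInt.norm_add_eq_max_of_ne h2, norm_one]
    exact max_eq_left h1.le
  have hF : aeval x₀ (X ^ p - C W : ℤ_[p][X]) = x₀ ^ p - W := by simp
  have hF' : aeval x₀ (derivative (X ^ p - C W : ℤ_[p][X])) = (p : ℤ_[p]) * x₀ ^ (p - 1) := by
    rw [derivative_sub, derivative_C, sub_zero, derivative_X_pow]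
    simp
  obtain ⟨Z, hZ, -⟩ := hensels_lemma (p := p) (R := ℤ_[p]) (F := (X ^ p - C W : ℤ_[p][X]))
    (a := x₀) (by
      rw [hF, hF', hval, norm_mul, norm_mul, norm_pow, norm_pow,
        hx₀n, hpn, one_pow, mul_one]
      calc (p : ℝ)⁻¹ ^ 3 * ‖(m : ℤ_[p]) * a ^ 2 + a ^ 3 * r‖ ≤ (p : ℝ)⁻¹ ^ 3 * 1 :=
            mul_le_mul_of_nonneg_left (PadicInt.norm_le_one _) (by positivity)
        _ = (p : ℝ)⁻¹ ^ 3 := mul_one _
        _ < (p : ℝ)⁻¹ ^ 2 := pow_lt_pow_right_of_lt_one₀ hpinv0 hpinv1 (by norm_num))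
  refine ⟨Z, ?_⟩
  have : Z ^ p - W = 0 := by simpa using hZ
  exact sub_eq_zero.1 this

/-- Decomposition of `x ∈ ℚ_p^×` into a power of `p` and a unit `U` with `U^(p-1) = 1 + p b`. -/
private lemma padicPow_decomp (p : ℕ) [Fact p.Prime] (x : ℚ_[p]ˣ) :
    ∃ U b : ℤ_[p], (x : ℚ_[p]) = (U : ℚ_[p]) * (p : ℚ_[p]) ^ (x : ℚ_[p]).valuation ∧ ‖U‖ = 1 ∧
      U ^ (p - 1) - 1 = (p : ℤ_[p]) * b := by
  have hx : (x : ℚ_[p]) ≠ 0 := x.ne_zero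
  have hp0 : (p : ℚ_[p]) ≠ 0 := by exact_mod_cast (Fact.out : p.Prime).ne_zero
  have hpR : (p : ℝ) ≠ 0 := by exact_mod_cast (Fact.out : p.Prime).ne_zero
  set v := (x : ℚ_[p]).valuation with hv
  have hn : ‖(x : ℚ_[p]) * (p : ℚ_[p]) ^ (-v)‖ = 1 := by
    rw [norm_mul, Padic.norm_p_zpow, Padic.norm_eq_zpow_neg_valuation hx, neg_neg, ← hv,
      ← zpow_add₀ hpR]
    simp
  let U : ℤ_[p] := ⟨(x : ℚ_[p]) * (p : ℚ_[p]) ^ (-v), hn.le⟩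
  have hU1 : ‖U‖ = 1 := hn
  have hUunit : IsUnit U := PadicInt.isUnit_iff.2 hU1
  have hres : PadicInt.toZMod U ≠ 0 := by
    intro h
    have h' : U ∈ RingHom.ker (PadicInt.toZMod (p := p)) := h
    rw [PadicInt.ker_toZMod] at h'
    exact (IsLocalRing.mem_maximalIdeal _).1 h' hUunit
  have h1 : PadicInt.toZMod (U ^ (p - 1) - 1) = 0 := by
    rw [map_sub, map_pow, map_one, ZMod.pow_card_sub_one_eq_one hres, sub_self]
  have h2 : U ^ (p - 1) - 1 ∈ Ideal.span {(p : ℤ_[p])} := by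
    rw [← PadicInt.maximalIdeal_eq_span_p, ← PadicInt.ker_toZMod]; exact h1
  obtain ⟨b, hb⟩ := Ideal.mem_span_singleton'.1 h2
  refine ⟨U, b, ?_, hU1, ?_⟩
  · show (x : ℚ_[p]) = ((x : ℚ_[p]) * (p : ℚ_[p]) ^ (-v)) * (p : ℚ_[p]) ^ v
    rw [mul_assoc, ← zpow_add₀ hp0]; simp
  · rw [← hb, mul_comm]

/-- **(K2)** `ℚ_p^× / (ℚ_p^×)^p` has at most `p²` elements (`p` odd): there is a map to `Fin (p²)`
whose fibres consist of elements with the same class modulo `p`-th powers. -/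
theorem so_padic_units_mod_pow (p : ℕ) [Fact p.Prime] (hp2 : p ≠ 2) :
    ∃ F : ℚ_[p]ˣ → Fin (p ^ 2), ∀ x y : ℚ_[p]ˣ, F x = F y → ∃ z : ℚ_[p]ˣ, x = y * z ^ p := by
  have hp : p.Prime := Fact.out
  have : NeZero p := ⟨hp.ne_zero⟩
  have hp0 : (p : ℚ_[p]) ≠ 0 := by exact_mod_cast hp.ne_zero
  choose U b hxU hUn hUb using padicPow_decomp p
  let e : Fin p × Fin p ≃ Fin (p ^ 2) := finProdFinEquiv.trans (finCongr (by ring))
  refine ⟨fun x => e (⟨(((x : ℚ_[p]).valuation : ℤ) : ZMod p).val, ZMod.val_lt _⟩,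
      ⟨(PadicInt.toZMod (b x)).val, ZMod.val_lt _⟩), ?_⟩
  intro x y hxy
  have h := e.injective hxy
  rw [Prod.mk.injEq, Fin.mk.injEq, Fin.mk.injEq] at h
  obtain ⟨hv, hb⟩ := h
  have hv' := ZMod.val_injective p hv
  have hb' := ZMod.val_injective p hb
  obtain ⟨k, hk⟩ : (p : ℤ) ∣ (x : ℚ_[p]).valuation - (y : ℚ_[p]).valuation :=
    (ZMod.intCast_eq_intCast_iff_dvd_sub _ _ p).1 hv'.symm
  have hbd : b x - b y ∈ Ideal.span {(p : ℤ_[p])} := by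
    rw [← PadicInt.maximalIdeal_eq_span_p, ← PadicInt.ker_toZMod, RingHom.mem_ker, map_sub, hb',
      sub_self]
  obtain ⟨d, hd⟩ := Ideal.mem_span_singleton'.1 hbd
  obtain ⟨Uy, hUy⟩ := PadicInt.isUnit_iff.2 (hUn y)
  obtain ⟨Z, hZ⟩ := padicPow_hensel p hp2 (d * (↑(Uy⁻¹) : ℤ_[p]) ^ (p - 1))
  have e2 : U y * (↑(Uy⁻¹) : ℤ_[p]) = 1 := by rw [← hUy, Units.mul_inv]
  have hW : (U x * ↑(Uy⁻¹)) ^ (p - 1) =
      1 + (p : ℤ_[p]) ^ 2 * (d * (↑(Uy⁻¹) : ℤ_[p]) ^ (p - 1)) := by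
    have e1 : U x ^ (p - 1) = U y ^ (p - 1) + (p : ℤ_[p]) ^ 2 * d := by
      linear_combination (hUb x) - (hUb y) - (p : ℤ_[p]) * hd
    have e3 : U y ^ (p - 1) * (↑(Uy⁻¹) : ℤ_[p]) ^ (p - 1) = 1 := by
      rw [← mul_pow, e2, one_pow]
    rw [mul_pow, e1, add_mul, e3]; ring
  -- pass to `ℚ_p`
  have hux : (U x : ℚ_[p]) ≠ 0 := by
    intro h0
    have : ‖(U x : ℚ_[p])‖ = 1 := hUn x
    rw [h0, norm_zero] at this; exact zero_ne_one this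
  have huy : (U y : ℚ_[p]) ≠ 0 := by
    intro h0
    have : ‖(U y : ℚ_[p])‖ = 1 := hUn y
    rw [h0, norm_zero] at this; exact zero_ne_one this
  have hinv : (((↑(Uy⁻¹) : ℤ_[p]) : ℚ_[p])) = (U y : ℚ_[p])⁻¹ := by
    have : (U y : ℚ_[p]) * ((↑(Uy⁻¹) : ℤ_[p]) : ℚ_[p]) = 1 := by
      rw [← PadicInt.coe_mul, e2, PadicInt.coe_one]
    exact eq_inv_of_mul_eq_one_right this
  set w : ℚ_[p] := (U x : ℚ_[p]) * (U y : ℚ_[p])⁻¹ with hw
  have hw0 : w ≠ 0 := mul_ne_zero hux (inv_ne_zero huy)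
  have hZw : (Z : ℚ_[p]) ^ p = w ^ (p - 1) := by
    have h1 : ((Z ^ p : ℤ_[p]) : ℚ_[p]) = (((U x * ↑(Uy⁻¹)) ^ (p - 1) : ℤ_[p]) : ℚ_[p]) := by
      rw [hZ, hW]
    push_cast at h1
    rw [hinv] at h1
    exact h1
  have hZ0 : (Z : ℚ_[p]) ≠ 0 := by
    intro h0
    rw [h0, zero_pow hp.ne_zero] at hZw
    exact pow_ne_zero _ hw0 hZw.symm
  have hwp : (w / (Z : ℚ_[p])) ^ p = w := by
    have h1 : w ^ p = w ^ (p - 1) * w := by
      rw [← pow_succ, Nat.sub_add_cancel hp.one_le]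
    rw [div_pow, h1, hZw]
    field_simp
  have hz0 : w / (Z : ℚ_[p]) * (p : ℚ_[p]) ^ k ≠ 0 :=
    mul_ne_zero (div_ne_zero hw0 hZ0) (zpow_ne_zero _ hp0)
  refine ⟨Units.mk0 _ hz0, ?_⟩
  apply Units.ext
  rw [Units.val_mul, Units.val_pow_eq_pow_val, Units.val_mk0, mul_pow, hwp, hxU x, hxU y]
  have hvx : (x : ℚ_[p]).valuation = (y : ℚ_[p]).valuation + (p : ℤ) * k := by
    rw [← hk]; ring
  rw [hvx, zpow_add₀ hp0, ← zpow_natCast ((p : ℚ_[p]) ^ k) p, ← zpow_mul, hw, mul_comm k (p : ℤ)]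
  field_simp

end Fermat.Agent.S56.SO
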