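/-
S56, wall W3c (strict ordinary at `p`), sub-architect file: definitions.  Owner: helper25.  FIXED.

`Gp p`            : the local Galois group at `p` (`primeLocalGaloisGroup (pPrime p)`);
`locp p`          : `Gp p →* G_ℚ`;
`cycLoc p`        : the mod `p` cyclotomic character on `Gp p`, with values in `ZMod p`;
`IsCycLoc p ω`    : `ω : Gp p → k` is the mod `p` cyclotomic character with values in `k`;
`twZ p ω`         : the level-constant `ω`-twisted cocycles `f : Gp p → k`,
                    `f (σ τ) = f σ + ω σ · f τ`  (the cocycles of `k(ω)`);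
`W0 w`            : for a basis `w` of a plane `V`: the endomorphisms `f` with `f (w 0) = 0` and
                    `f (w 1) ∈ k · w 0`  (`= Hom (V / ℓ, ℓ)`, `ℓ = k · w 0`).

Plan of the wall (see `S56/W3/SO.lean`):
  (K)  `#(twZ p ω) ≤ |k|³`                                   (local Kummer theory, `SO/Kummer.lean`)
  (T)  tangent cocycles of strict-ordinary deformations are, up to a coboundary, `W0`-valued on the
       decomposition group                                   (`SO/Tangent.lean`)
  (N)  counting: `L := classes with a W0-valued representative`, `#L ≤ |k| · #H⁰`  (`SO/Count.lean`)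
-/
import Fermat.Agent.S56.Local.Walls
import Fermat.Prelude.Def_GaloisRep_StrictOrdinary
import Fermat.Agent.S59.DefCond.StrictOrdAlg

set_option autoImplicit false

namespace Fermat.Agent.S56.SO

open Fermat.Agent.F4 ExtCitation

variable (p : ℕ) [Fact p.Prime]

/-- The local Galois group at `p`. -/
abbrev Gp : Type := primeLocalGaloisGroup (pPrime p)

/-- `Gal(ℚ̄_p/ℚ_p) → Gal(ℚ̄/ℚ)`. -/
noncomputable abbrev locp : Gp p →* GQ := primeLocalToGlobal (pPrime p)

/-- The mod `p` cyclotomic character of the local group, with values in `ZMod p`. -/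
noncomputable def cycLoc (γ : Gp p) : ZMod p := ((cycloChar p (locp p γ) : (ZMod p)ˣ) : ZMod p)

variable {k : Type} [Field k]

/-- `ω : Gp p → k` is the mod `p` cyclotomic character. -/
def IsCycLoc (ω : Gp p → k) : Prop :=
  ∀ (γ : Gp p) (a : ℕ),
    (∀ μ : AlgebraicClosure ℚ, μ ^ p = 1 → locp p γ μ = μ ^ a) → ω γ = (a : k)

/-- The level-constant `ω`-twisted cocycles `Gp p → k`. -/
def twZ (ω : Gp p → k) : AddSubgroup (Gp p → k) where
  carrier := {f | IsLC₁ (locLevelsAll (pPrime p)) f ∧ ∀ σ τ : Gp p, f (σ * τ) = f σ + ω σ * f τ}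
  add_mem' := by
    rintro f g ⟨hf, hf'⟩ ⟨hg, hg'⟩
    refine ⟨hf.add hg, fun σ τ => ?_⟩
    simp only [Pi.add_apply, hf' σ τ, hg' σ τ]
    ring
  zero_mem' := ⟨isLC₁_const _ (0 : k), fun σ τ => by simp⟩
  neg_mem' := by
    rintro f ⟨hf, hf'⟩
    refine ⟨hf.comp (fun x => -x), fun σ τ => ?_⟩
    simp only [Pi.neg_apply, hf' σ τ]
    ring

theorem mem_twZ {ω : Gp p → k} {f : Gp p → k} :
    f ∈ twZ p ω ↔ IsLC₁ (locLevelsAll (pPrime p)) f ∧
      ∀ σ τ : Gp p, f (σ * τ) = f σ + ω σ * f τ := Iff.rfl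

variable {V : Type} [AddCommGroup V] [Module k V]

/-- The endomorphisms killing `w 0` and mapping `w 1` into `k · w 0`. -/
def W0 (w : Module.Basis (Fin 2) k V) : Submodule k (Module.End k V) where
  carrier := {f | f (w 0) = 0 ∧ w.repr (f (w 1)) 1 = 0}
  add_mem' := by
    rintro f g ⟨hf, hf'⟩ ⟨hg, hg'⟩
    refine ⟨?_, ?_⟩
    · rw [LinearMap.add_apply, hf, hg, add_zero]
    · rw [LinearMap.add_apply, map_add, Finsupp.add_apply, hf', hg', add_zero]
  zero_mem' := ⟨by simp, by simp⟩
  smul_mem' := by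
    rintro c f ⟨hf, hf'⟩
    refine ⟨?_, ?_⟩
    · rw [LinearMap.smul_apply, hf, smul_zero]
    · rw [LinearMap.smul_apply, map_smul, Finsupp.smul_apply, hf', smul_zero]

theorem mem_W0 {w : Module.Basis (Fin 2) k V} {f : Module.End k V} :
    f ∈ W0 w ↔ f (w 0) = 0 ∧ w.repr (f (w 1)) 1 = 0 := Iff.rfl

end Fermat.Agent.S56.SO
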