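/-
S56, wall W3c, seat SO-T, part T0 (helper91): the residual representation of a strict-ordinary
deformation to `k[ε]` is triangular at `P`.

`so_exists_soTri_res` has the statement of `so_exists_soTri` (`SO/Tangent.lean`, owner helper2).

Proof.  `hso` gives a basis `b` of `ρ.V` with `SOTri ρ.ρ p P b` (`SOAt.exists_soTri`).  Let
`P0 = redFst ∘ e⁻¹ : ρ.V → V` (constant part; helper87's `Tangent/Red.lean`): it is additive,
`P0 (a • y) = fst a • P0 y`, `P0 (ρ σ y) = ρbar σ (P0 y)`, and surjective.  So `w i = P0 (b i)` spans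
`V`, hence is a basis, and `w.repr (P0 y) i = fst (b.repr y i)`.  The three conditions for `ρbar`
are the images under `fst` of those of `ρ`.
-/
import Fermat.Agent.S56.W3.SO.Tangent.Red

set_option autoImplicit false

namespace Fermat.Agent.S56.SO

open Fermat.Agent.F4 ExtCitation
open scoped TensorProduct

section T0

variable {k : Type} [Field k] {ρbar : ResidualGaloisRep k} {ρ : GaloisRepAdic (DualNumber k)}

/-- The constant part of an element of `ρ.V`, with respect to the isomorphism `e`. -/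
noncomputable def resP0 (e : (DualNumber k ⊗[k] ρbar.V) ≃ₗ[DualNumber k] ρ.V) (y : ρ.V) :
    ρbar.V :=
  redFst (e.symm y)

variable (e : (DualNumber k ⊗[k] ρbar.V) ≃ₗ[DualNumber k] ρ.V)

theorem resP0_add (y y' : ρ.V) : resP0 e (y + y') = resP0 e y + resP0 e y' := by
  unfold resP0
  rw [map_add, map_add]

theorem resP0_smul (a : DualNumber k) (y : ρ.V) :
    resP0 e (a • y) = TrivSqZeroExt.fst a • resP0 e y := by
  unfold resP0
  rw [map_smul, redFst_smul]

theorem resP0_sum (a : Fin 2 → DualNumber k) (y : Fin 2 → ρ.V) :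
    resP0 e (∑ i, a i • y i) = ∑ i, TrivSqZeroExt.fst (a i) • resP0 e (y i) := by
  rw [Fin.sum_univ_two, Fin.sum_univ_two, resP0_add, resP0_smul, resP0_smul]

theorem resP0_apply_one_tmul (v : ρbar.V) : resP0 e (e ((1 : DualNumber k) ⊗ₜ[k] v)) = v := by
  unfold resP0
  rw [LinearEquiv.symm_apply_apply, redFst_one_tmul]

/-- `P0` intertwines `ρ` and `ρbar`. -/
theorem resP0_ρ {c : GQ → ad0 ρbar}
    (he : ∀ (σ : GQ) (x : DualNumber k ⊗[k] ρbar.V),
      ρ.ρ σ (e x) = e (defEnd ρbar (c σ : ↥(ad0Sub ρbar)).1 σ x)) (σ : GQ) (y : ρ.V) :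
    resP0 e (ρ.ρ σ y) = ρbar.ρ σ (resP0 e y) := by
  unfold resP0
  have h := he σ (e.symm y)
  rw [LinearEquiv.apply_symm_apply] at h
  rw [h, LinearEquiv.symm_apply_apply, redFst_defEnd]

/-- The constant parts of a basis of `ρ.V` span `V`. -/
theorem resP0_span (b : Module.Basis (Fin 2) (DualNumber k) ρ.V) :
    ⊤ ≤ Submodule.span k (Set.range fun i => resP0 e (b i)) := by
  intro v _
  have h1 : v = resP0 e (∑ i, b.repr (e ((1 : DualNumber k) ⊗ₜ[k] v)) i • b i) := by
    rw [b.sum_repr, resP0_apply_one_tmul]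
  rw [h1, resP0_sum]
  refine Submodule.sum_mem _ fun i _ => Submodule.smul_mem _ _ ?_
  exact Submodule.subset_span ⟨i, rfl⟩

/-- The basis of `V` of the constant parts of a basis of `ρ.V`. -/
noncomputable def resBasis (b : Module.Basis (Fin 2) (DualNumber k) ρ.V) :
    Module.Basis (Fin 2) k ρbar.V :=
  basisOfTopLeSpanOfCardEqFinrank (fun i => resP0 e (b i)) (resP0_span e b)
    (by rw [ρbar.finrank_eq, Fintype.card_fin])

theorem resBasis_apply (b : Module.Basis (Fin 2) (DualNumber k) ρ.V) (i : Fin 2) :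
    resBasis e b i = resP0 e (b i) := by
  unfold resBasis
  rw [coe_basisOfTopLeSpanOfCardEqFinrank]

/-- The coordinates of the constant part are the constant parts of the coordinates. -/
theorem resBasis_repr (b : Module.Basis (Fin 2) (DualNumber k) ρ.V) (y : ρ.V) (i : Fin 2) :
    (resBasis e b).repr (resP0 e y) i = TrivSqZeroExt.fst (b.repr y i) := by
  have h1 : resP0 e y = ∑ j, TrivSqZeroExt.fst (b.repr y j) • resBasis e b j := by
    conv_lhs => rw [← b.sum_repr y]
    rw [resP0_sum]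
    exact Finset.sum_congr rfl fun j _ => by rw [resBasis_apply]
  rw [h1, Module.Basis.repr_sum_self]

end T0

/-- **(T0)** if `ρbar` has a strict-ordinary deformation to `k[ε]`, it is triangular at `P`. -/
theorem so_exists_soTri_res {k : Type} [Field k] (p : ℕ) [Fact p.Prime]
    (ρbar : ResidualGaloisRep k)
    (P : ValuationSubring (AlgebraicClosure ℚ)) (hP : P.LiesOverPrime p)
    (c : GQ → ad0 ρbar) (ρ : GaloisRepAdic (DualNumber k)) (hdef : IsDefOf ρbar c ρ)
    (hso : ρ.IsStrictOrdinaryAt p) :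
    ∃ w : Module.Basis (Fin 2) k ρbar.V, Fermat.Agent.S59.SO.SOTri ρbar.ρ p P w := by
  obtain ⟨e, he⟩ := hdef
  have hAt : Fermat.Agent.S59.SO.SOAt ρ.ρ p P := hso.2 P hP
  obtain ⟨b, hb⟩ := hAt.exists_soTri
  have key : ∀ (σ : GQ) (i j : Fin 2),
      (resBasis e b).repr (ρbar.ρ σ (resBasis e b i)) j =
        TrivSqZeroExt.fst (b.repr (ρ.ρ σ (b i)) j) := by
    intro σ i j
    rw [resBasis_apply, ← resP0_ρ e he, resBasis_repr]
  refine ⟨resBasis e b, ⟨fun σ hσ => ?_, fun σ hσ => ?_, fun σ hσ => ?_⟩⟩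
  · rw [key, hb.dec σ hσ, TrivSqZeroExt.fst_zero]
  · rw [key, hb.inert σ hσ, TrivSqZeroExt.fst_one]
  · rw [key, key]
    exact (hb.cyc σ hσ).map (TrivSqZeroExt.fstHom k k k).toRingHom

end Fermat.Agent.S56.SO
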