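/-
S56, wall W3c, seat SO-T (DONE: T0 helper91 `TangentRes.lean`, T1 helper2 `Tangent/T1.lean`): normal form of the strict-ordinary tangent cocycles.
Statements FIXED.  Library: `Fermat.Agent.S59.SO` (`SOAt`, `SOTri`, `SOTri.map_equiv`,
`SOAt.baseChange`, `soTri_pull`, `exists_basis_of_soAt`, `cycRel_iff_of_pow_eq_zero`),
`Fermat.Agent.MultRed.exists_inertia_cycExp_ne_one`.

Setting: `R σ = defEnd ρbar (c σ) σ = (1 + ε c σ) ρbar σ` on `k[ε] ⊗ V`; by `IsDefOf` it is
isomorphic to `ρ`, so it is strict-ordinary at `P` (`SOTri.map_equiv`): there is a `k[ε]`-basis `W`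
with `SOTri R p P W`.
(T0) reduce modulo `ε` (`SOAt.baseChange` along `k[ε] → k`, or constant parts of `W`).
(T1) the line of `ρbar` is unique (`= range (ρbar σ₀ - 1)`, `σ₀` in inertia with cyclotomic exponent
`≠ 1`), so `W 0 = u • (1 ⊗ w 0 + ε ⊗ a)` with `u` a unit.  Let `m₁ : w 0 ↦ a, w 1 ↦ 0` and
`m = m₁ - (tr m₁ / 2)`.  Conjugating by `1 + ε m₁` gives `(1 + ε c') ρbar`, `c' σ = c σ + (σ m - m)`,
triangular for the constant basis `w`:  `dec` says `c' σ` preserves `k · w 0`, `cyc` (with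
`x = a z` for `ρbar`) says that the two diagonal entries of `c' σ` agree, and `tr (c' σ) = 0`, `p ≠ 2`
give that both are `0`:  `c' σ ∈ W0 w`.
-/
import Fermat.Agent.S56.W3.SO.Defs
import Fermat.Agent.Lib.MultRed.InertiaCyclo
import Fermat.Agent.S56.W3.SO.TangentRes
import Fermat.Agent.S56.W3.SO.Tangent.T1

set_option autoImplicit false

namespace Fermat.Agent.S56.SO

open Fermat.Agent.F4 ExtCitation

/-- **(T0)** if `ρbar` has a strict-ordinary deformation to `k[ε]`, it is triangular at `P`. -/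
theorem so_exists_soTri {k : Type} [Field k] (p : ℕ) [Fact p.Prime] (ρbar : ResidualGaloisRep k)
    (P : ValuationSubring (AlgebraicClosure ℚ)) (hP : P.LiesOverPrime p)
    (c : GQ → ad0 ρbar) (ρ : GaloisRepAdic (DualNumber k)) (hdef : IsDefOf ρbar c ρ)
    (hso : ρ.IsStrictOrdinaryAt p) :
    ∃ w : Module.Basis (Fin 2) k ρbar.V, Fermat.Agent.S59.SO.SOTri ρbar.ρ p P w :=
  so_exists_soTri_res p ρbar P hP c ρ hdef hso

/-- **(T1)** a strict-ordinary tangent cocycle is, up to the coboundary of some `m ∈ ad⁰`,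
`W0 w`-valued on the decomposition group of `P`. -/
theorem so_tangent_normal_form {k : Type} [Field k] (p : ℕ) [Fact p.Prime] (hp2 : p ≠ 2)
    (hpk : (p : k) = 0) (ρbar : ResidualGaloisRep k)
    (P : ValuationSubring (AlgebraicClosure ℚ)) (hP : P.LiesOverPrime p)
    (w : Module.Basis (Fin 2) k ρbar.V) (hw : Fermat.Agent.S59.SO.SOTri ρbar.ρ p P w)
    (c : GQ → ad0 ρbar) (ρ : GaloisRepAdic (DualNumber k)) (hdef : IsDefOf ρbar c ρ)
    (hso : ρ.IsStrictOrdinaryAt p) :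
    ∃ m : ad0 ρbar, ∀ σ ∈ P.decompositionSubgroup ℚ,
      ((c σ + ((ad0 ρbar).ρ σ m - m) : ad0 ρbar) : ↥(ad0Sub ρbar)).1 ∈ W0 w :=
  so_tangent_normal_form_pf p hp2 hpk ρbar P hP w hw c ρ hdef hso

end Fermat.Agent.S56.SO
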