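/-
S56, wall W3c, seat SO-D1: the mod `p` cyclotomic character of `Gal(ℚ̄_p/ℚ_p)` is
nontrivial (`p` odd), and basic properties of `cycLoc`.  Statements FIXED (sub-architect helper25);
proofs by helper30.

Proof of `exists_cycLoc_ne_one`.  Some element `σ₀` of the inertia group of `padicPlace p` acts on
`μ_p` by inversion (`Fermat.Agent.S59.SOArith.exists_inertia_inv_on_roots`); it lies in the
decomposition group of `padicPlace p`, which is the image of the local Galois group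
(`Fermat.Agent.LocalGalois.range_localGaloisToGlobal`).  So `σ₀ = locp p γ`, and `γ` moves a primitive
`p`-th root of unity (`p` odd), hence `cycLoc p γ ≠ 1`.
-/
import Fermat.Agent.S56.W3.SO.Defs
import Fermat.Agent.Lib.LocalGalois.Range

set_option autoImplicit false

namespace Fermat.Agent.S56.SO

open Fermat.Agent.F4 ExtCitation

variable (p : ℕ) [Fact p.Prime]

/-- `σ` acts on `μ_p` through the exponent `cycloChar p σ`. -/
theorem cycloc_apply_root (σ : GQ) (μ : AlgebraicClosure ℚ) (hμ : μ ^ p = 1) :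
    σ μ = μ ^ ((cycloChar p σ : (ZMod p)ˣ) : ZMod p).val := by
  have : NeZero p := ⟨(Fact.out : p.Prime).ne_zero⟩
  have h := modularCyclotomicCharacter.spec (AlgebraicClosure ℚ) (card_rootsOfUnity_eq_self p)
    (σ : AlgebraicClosure ℚ ≃+* AlgebraicClosure ℚ)
    (t := (rootsOfUnity.mkOfPowEq μ hμ : (AlgebraicClosure ℚ)ˣ)) (rootsOfUnity.mkOfPowEq μ hμ).2
  rw [val_cycloChar]
  simpa [cycloExp] using h

/-- If `σ` acts on the `p`-th roots of unity by `μ ↦ μ ^ a` then `cycloChar p σ = a`. -/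
theorem cycloc_char_eq_of_forall (σ : GQ) (a : ℕ)
    (h : ∀ μ : AlgebraicClosure ℚ, μ ^ p = 1 → σ μ = μ ^ a) :
    ((cycloChar p σ : (ZMod p)ˣ) : ZMod p) = (a : ZMod p) := by
  have : NeZero p := ⟨(Fact.out : p.Prime).ne_zero⟩
  have hu := modularCyclotomicCharacter.unique (AlgebraicClosure ℚ) (card_rootsOfUnity_eq_self p)
    (σ : AlgebraicClosure ℚ ≃+* AlgebraicClosure ℚ) (c := (a : ZMod p)) (by
      intro t ht
      have ht' : (t : AlgebraicClosure ℚ) ^ p = 1 := by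
        have := (mem_rootsOfUnity p t).mp ht
        rw [← Units.val_pow_eq_pow_val, this, Units.val_one]
      rw [ZMod.val_natCast, ← pow_eq_pow_mod a ht']
      exact h t ht')
  exact hu.symm

/-- `padicPlace p` lies over `p`. -/
theorem cycloc_padicPlace_liesOver : (padicPlace p).LiesOverPrime p := by
  have hp : p.Prime := Fact.out
  show ((p : ℕ) : AlgebraicClosure ℚ) ∈ (padicPlace p).nonunits
  have hnorm : ‖padicEmbedding p ((p : ℕ) : AlgebraicClosure ℚ)‖ = (p : ℝ)⁻¹ := by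
    rw [map_natCast]
    have h2 : ‖((p : ℕ) : PadicAlgCl p)‖ = ‖((p : ℕ) : ℚ_[p])‖ := by
      rw [← PadicAlgCl.norm_extends]
      congr 1
    rw [h2, Padic.norm_p]
  have hp1 : (1 : ℝ) < p := by exact_mod_cast hp.one_lt
  have hp0 : ((p : ℕ) : AlgebraicClosure ℚ) ≠ 0 := by exact_mod_cast hp.ne_zero
  rw [ValuationSubring.mem_nonunits_iff]
  by_contra hcon
  have h5 : 1 ≤ (padicPlace p).valuation ((p : ℕ) : AlgebraicClosure ℚ) := not_lt.1 hcon
  have h4 : (padicPlace p).valuation ((p : ℕ) : AlgebraicClosure ℚ) ≠ 0 :=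
    (Valuation.ne_zero_iff _).2 hp0
  have h3 : (padicPlace p).valuation ((p : ℕ) : AlgebraicClosure ℚ)⁻¹ ≤ 1 := by
    rw [map_inv₀]
    exact (inv_le_one₀ (zero_lt_iff.2 h4)).2 h5
  have h2 : ((p : ℕ) : AlgebraicClosure ℚ)⁻¹ ∈ padicPlace p :=
    (ValuationSubring.valuation_le_one_iff _ _).1 h3
  have h1 : ‖padicEmbedding p (((p : ℕ) : AlgebraicClosure ℚ)⁻¹)‖₊ ≤ 1 :=
    (mem_padicPlace_iff p).1 h2
  have h1' : ‖padicEmbedding p (((p : ℕ) : AlgebraicClosure ℚ)⁻¹)‖ ≤ 1 := by exact_mod_cast h1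
  rw [map_inv₀, norm_inv, hnorm, inv_inv] at h1'
  exact absurd h1' (not_le.2 hp1)

/-- `cycLoc` is the cyclotomic exponent: `γ μ = μ ^ (cycLoc γ).val` for the `p`-th roots of unity
of `ℚ̄`. -/
theorem cycLoc_spec (γ : Gp p) (μ : AlgebraicClosure ℚ) (hμ : μ ^ p = 1) :
    locp p γ μ = μ ^ (cycLoc p γ).val :=
  cycloc_apply_root p (locp p γ) μ hμ

/-- If `γ` acts on the `p`-th roots of unity by `μ ↦ μ ^ a` then `cycLoc γ = a`. -/
theorem cycLoc_eq_of_forall (γ : Gp p) (a : ℕ)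
    (h : ∀ μ : AlgebraicClosure ℚ, μ ^ p = 1 → locp p γ μ = μ ^ a) : cycLoc p γ = (a : ZMod p) :=
  cycloc_char_eq_of_forall p (locp p γ) a h

/-- `cycLoc` is multiplicative. -/
theorem cycLoc_mul (γ δ : Gp p) : cycLoc p (γ * δ) = cycLoc p γ * cycLoc p δ := by
  show ((cycloChar p (locp p (γ * δ)) : (ZMod p)ˣ) : ZMod p) =
    ((cycloChar p (locp p γ) : (ZMod p)ˣ) : ZMod p) * ((cycloChar p (locp p δ) : (ZMod p)ˣ) : ZMod p)
  rw [map_mul, map_mul, Units.val_mul]

/-- **(D1)** the mod `p` cyclotomic character of the local group is nontrivial (`p` odd). -/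
theorem exists_cycLoc_ne_one (hp2 : p ≠ 2) : ∃ γ : Gp p, cycLoc p γ ≠ 1 := by
  have hp : p.Prime := Fact.out
  have : NeZero p := ⟨hp.ne_zero⟩
  obtain ⟨σ₀, hσ₀, hinv⟩ := Fermat.Agent.S59.SOArith.exists_inertia_inv_on_roots p (padicPlace p)
    (cycloc_padicPlace_liesOver p)
  -- `σ₀` lies in the decomposition group, hence in the image of the local Galois group
  have hdec : σ₀ ∈ (padicPlace p).decompositionSubgroup ℚ := by
    obtain ⟨x, -, rfl⟩ := Subgroup.mem_map.mp hσ₀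
    exact x.2
  rw [← Fermat.Agent.LocalGalois.range_localGaloisToGlobal p] at hdec
  obtain ⟨τ, hτ⟩ := hdec
  refine ⟨(τ : Gp p), fun h1 => ?_⟩
  have hloc : locp p (τ : Gp p) = σ₀ := hτ
  obtain ⟨ζ, hζ⟩ := HasEnoughRootsOfUnity.exists_primitiveRoot (AlgebraicClosure ℚ) p
  have hfix : σ₀ ζ = ζ := by
    have h2 := cycLoc_spec p (τ : Gp p) ζ hζ.pow_eq_one
    rw [h1, ZMod.val_one'', pow_one, hloc] at h2
    · exact h2
    · exact hp.ne_one
  rw [hinv ζ hζ.pow_eq_one] at hfix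
  have hζ0 : ζ ≠ 0 := hζ.ne_zero hp.ne_zero
  have h2 : ζ ^ 2 = 1 := by
    rw [pow_two]
    nth_rewrite 1 [← hfix]
    exact inv_mul_cancel₀ hζ0
  have hdvd : p ∣ 2 := hζ.dvd_of_pow_eq_one 2 h2
  exact hp2 ((Nat.prime_dvd_prime_iff_eq hp Nat.prime_two).mp hdvd)

end Fermat.Agent.S56.SO
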