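/-
S56, wall W3c, seat SO-K3 (helper91): the Kummer bound with coefficients in a finite field `k` of
characteristic `p`.  Statement FIXED.

Proof.  `ω γ = (cycLoc p γ).val` in `k` (`IsCycLoc` + `cycLoc_spec`).  `k` is a `ZMod p`-vector space
of dimension `d`, `|k| = p ^ d`; let `e_i` be a basis and `λ_i` the coordinate functionals.  For
`f ∈ twZ p ω`, `λ_i ∘ f ∈ twZ p (cycLoc p)`.  With `F` of `so_kummer_fp` and `γ₁` of
`exists_cycLoc_ne_one` the map `f ↦ ((F (λ_i ∘ f))_i, f γ₁) : twZ p ω → (Fin d → Fin (p²)) × k`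
is injective: if the images of `f, f'` agree, `g = f - f'` has `λ_i (g γ) = (cycLoc γ - 1) t_i`, so
`g γ = (ω γ - 1) t`, `t = ∑ t_i e_i`, and `g γ₁ = 0`, `ω γ₁ ≠ 1` give `t = 0`.
The target has `(p²)^d · |k| = |k|³` elements.
-/
import Fermat.Agent.S56.W3.SO.KummerFp

set_option autoImplicit false
set_option linter.style.haveILetI false

namespace Fermat.Agent.S56.SO

open Fermat.Agent.F4 ExtCitation

/-- A field in which `p = 0` has characteristic `p`. -/
theorem sok3_charP {k : Type} [Field k] (p : ℕ) [Fact p.Prime] (hpk : (p : k) = 0) :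
    CharP k p := by
  have hp : p.Prime := Fact.out
  have hdvd : ringChar k ∣ p := ringChar.dvd hpk
  have h1 : ringChar k ≠ 1 := CharP.ringChar_ne_one
  rcases (Nat.dvd_prime hp).1 hdvd with h | h
  · exact absurd h h1
  · exact ringChar.of_eq h

section Coord

variable {k : Type} [Field k] (p : ℕ) [Fact p.Prime] [Algebra (ZMod p) k]

/-- `ω γ` is the image of `cycLoc p γ` in `k`. -/
theorem sok3_omega_eq (ω : Gp p → k) (hω : IsCycLoc p ω) (γ : Gp p) :
    ω γ = algebraMap (ZMod p) k (cycLoc p γ) := by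
  rw [hω γ (cycLoc p γ).val (fun μ hμ => cycLoc_spec p γ μ hμ)]
  have h := map_natCast (algebraMap (ZMod p) k) (cycLoc p γ).val
  rw [ZMod.natCast_val, ZMod.cast_id', id] at h
  exact h.symm

/-- The coordinates of a cocycle of `k(ω)` are cocycles of `𝔽_p(cycLoc)`. -/
theorem sok3_coord_mem (ω : Gp p → k) (hω : IsCycLoc p ω) (φ : k →ₗ[ZMod p] ZMod p)
    {f : Gp p → k} (hf : f ∈ twZ p ω) : (fun γ => φ (f γ)) ∈ twZ p (cycLoc p) := by
  refine ⟨hf.1.comp (fun x => φ x), fun σ τ => ?_⟩
  show φ (f (σ * τ)) = φ (f σ) + cycLoc p σ * φ (f τ)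
  rw [hf.2 σ τ, map_add, sok3_omega_eq p ω hω σ, ← Algebra.smul_def, map_smul, smul_eq_mul]

end Coord

/-- **(K)** there are at most `|k|³` level-constant cocycles of `k(ω)`
(`#H¹(ℚ_p, k(ω)) ≤ |k|²`, and `|k|` coboundaries). -/
theorem twZ_card_le {k : Type} [Field k] [Finite k] (p : ℕ) [Fact p.Prime] (hp2 : p ≠ 2)
    (hpk : (p : k) = 0) (ω : Gp p → k) (hω : IsCycLoc p ω) :
    Finite (twZ p ω) ∧ Nat.card (twZ p ω) ≤ Nat.card k ^ 3 := by
  classical
  have hchar : CharP k p := sok3_charP p hpk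
  letI : Algebra (ZMod p) k := ZMod.algebra k p
  letI : Fintype k := Fintype.ofFinite k
  set d := Module.finrank (ZMod p) k with hd
  have hcard : Nat.card k = p ^ d := by
    have h := Module.card_eq_pow_finrank (K := ZMod p) (V := k)
    rw [ZMod.card] at h
    rw [Nat.card_eq_fintype_card, h]
  let b : Module.Basis (Fin d) (ZMod p) k := Module.finBasis (ZMod p) k
  obtain ⟨F, hF⟩ := so_kummer_fp p hp2
  obtain ⟨γ₁, hγ₁⟩ := exists_cycLoc_ne_one p hp2
  let Φ : twZ p ω → (Fin d → Fin (p ^ 2)) × k := fun f =>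
    (fun i => F (fun γ => b.coord i (f.1 γ)), f.1 γ₁)
  have hΦ : Function.Injective Φ := by
    intro f f' hff
    have h1 : ∀ i, F (fun γ => b.coord i (f.1 γ)) = F (fun γ => b.coord i (f'.1 γ)) :=
      fun i => congrFun (congrArg Prod.fst hff) i
    have h2 : f.1 γ₁ = f'.1 γ₁ := congrArg Prod.snd hff
    have h3 : ∀ i, ∃ t : ZMod p, ∀ γ : Gp p,
        b.coord i (f.1 γ) - b.coord i (f'.1 γ) = (cycLoc p γ - 1) * t :=
      fun i => hF _ _ (sok3_coord_mem p ω hω (b.coord i) f.2)
        (sok3_coord_mem p ω hω (b.coord i) f'.2) (h1 i)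
    choose t ht using h3
    set T : k := ∑ i, t i • b i with hT
    have hTi : ∀ i, b.coord i T = t i := by
      intro i
      rw [hT, Module.Basis.coord_apply, Module.Basis.repr_sum_self]
    have hkey : ∀ γ : Gp p, f.1 γ - f'.1 γ = (ω γ - 1) * T := by
      intro γ
      apply b.repr.injective
      ext i
      have e1 : b.repr (f.1 γ - f'.1 γ) i = b.coord i (f.1 γ) - b.coord i (f'.1 γ) := by
        rw [map_sub, Finsupp.sub_apply]; rfl
      have e2 : b.repr ((ω γ - 1) * T) i = (cycLoc p γ - 1) * t i := by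
        have e3 : (ω γ - 1) * T = (cycLoc p γ - 1) • T := by
          rw [Algebra.smul_def, map_sub, map_one, sok3_omega_eq p ω hω γ]
        rw [e3, map_smul, Finsupp.smul_apply, smul_eq_mul]
        congr 1
        exact hTi i
      rw [e1, e2, ht i γ]
    have hω1 : ω γ₁ - 1 ≠ 0 := by
      intro h0
      apply hγ₁
      have h4 : algebraMap (ZMod p) k (cycLoc p γ₁) = algebraMap (ZMod p) k 1 := by
        rw [map_one, ← sok3_omega_eq p ω hω γ₁]
        exact sub_eq_zero.1 h0
      exact (algebraMap (ZMod p) k).injective h4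
    have hT0 : T = 0 := by
      have h5 := hkey γ₁
      rw [h2, sub_self] at h5
      rcases mul_eq_zero.1 h5.symm with h | h
      · exact absurd h hω1
      · exact h
    apply Subtype.ext
    funext γ
    have h6 := hkey γ
    rw [hT0, mul_zero] at h6
    exact sub_eq_zero.1 h6
  haveI : Finite (twZ p ω) := Finite.of_injective Φ hΦ
  refine ⟨inferInstance, ?_⟩
  calc Nat.card (twZ p ω) ≤ Nat.card ((Fin d → Fin (p ^ 2)) × k) :=
        Nat.card_le_card_of_injective Φ hΦ
    _ = Nat.card k ^ 3 := by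
        rw [Nat.card_prod, Nat.card_fun, Nat.card_fin, Nat.card_fin, hcard, ← pow_mul, ← pow_mul,
          ← pow_add]
        congr 1
        ring

end Fermat.Agent.S56.SO
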