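/-
S56, wall W3c, linear algebra of triangular endomorphisms of a plane with basis `w`
(owner: helper25).  `IsTri w g` : `g` preserves the line `k · w 0`.
-/
import Fermat.Agent.S56.W3.SO.Defs

set_option autoImplicit false

namespace Fermat.Agent.S56.SO

open Matrix

variable {k : Type} [Field k] {V : Type} [AddCommGroup V] [Module k V]
  (w : Module.Basis (Fin 2) k V)

/-- `g` is upper triangular with respect to `w`. -/
def IsTri (g : Module.End k V) : Prop := w.repr (g (w 0)) 1 = 0

/-- The matrix of an endomorphism. -/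
noncomputable abbrev mat (g : Module.End k V) : Matrix (Fin 2) (Fin 2) k :=
  LinearMap.toMatrix w w g

theorem mat_apply (g : Module.End k V) (i j : Fin 2) : mat w g i j = w.repr (g (w j)) i :=
  LinearMap.toMatrix_apply w w g i j

theorem mat_mul (g h : Module.End k V) : mat w (g * h) = mat w g * mat w h :=
  LinearMap.toMatrix_mul w g h

theorem mat_one : mat w (1 : Module.End k V) = 1 := LinearMap.toMatrix_one w

theorem mat_injective : Function.Injective (mat w : Module.End k V → _) :=
  (LinearMap.toMatrix w w).injective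

theorem isTri_iff (g : Module.End k V) : IsTri w g ↔ mat w g 1 0 = 0 := by
  rw [mat_apply]; rfl

theorem mem_W0_iff_mat (f : Module.End k V) :
    f ∈ W0 w ↔ mat w f 0 0 = 0 ∧ mat w f 1 0 = 0 ∧ mat w f 1 1 = 0 := by
  rw [mem_W0, mat_apply, mat_apply, mat_apply]
  constructor
  · rintro ⟨h0, h1⟩
    refine ⟨by rw [h0]; simp, by rw [h0]; simp, h1⟩
  · rintro ⟨h00, h10, h11⟩
    refine ⟨?_, h11⟩
    apply w.repr.injective
    ext i
    fin_cases i
    · simpa using h00
    · simpa using h10

/-- The entries of a product of `2 × 2` matrices. -/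
theorem mul_apply_two (A B : Matrix (Fin 2) (Fin 2) k) (i j : Fin 2) :
    (A * B) i j = A i 0 * B 0 j + A i 1 * B 1 j := by
  rw [Matrix.mul_apply, Fin.sum_univ_two]

section Inverse

variable {w} {g g' : Module.End k V}

/-- The relations between the entries of a triangular `g` and its inverse `g'`. -/
theorem tri_entries (hg : IsTri w g) (hgg' : g * g' = 1) :
    mat w g 1 1 * mat w g' 1 1 = 1 ∧ mat w g' 1 0 = 0 ∧ mat w g 0 0 * mat w g' 0 0 = 1 ∧
      mat w g 0 0 * mat w g' 0 1 + mat w g 0 1 * mat w g' 1 1 = 0 := by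
  have hM : mat w g * mat w g' = 1 := by rw [← mat_mul, hgg', mat_one]
  have h10 := (isTri_iff w g).mp hg
  have e11 := congrFun (congrFun hM 1) 1
  have e10 := congrFun (congrFun hM 1) 0
  have e00 := congrFun (congrFun hM 0) 0
  have e01 := congrFun (congrFun hM 0) 1
  rw [mul_apply_two] at e11 e10 e00 e01
  simp only [h10, zero_mul, zero_add, Matrix.one_apply_eq, Matrix.one_apply_ne,
    ne_eq, one_ne_zero, zero_ne_one, not_false_eq_true] at e11 e10 e00 e01
  have hz : mat w g 1 1 ≠ 0 := by
    intro h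
    rw [h, zero_mul] at e11
    exact zero_ne_one e11
  have hc : mat w g' 1 0 = 0 := by
    rcases mul_eq_zero.mp e10 with h | h
    · exact absurd h hz
    · exact h
  rw [hc, mul_zero, add_zero] at e00
  exact ⟨e11, hc, e00, e01⟩

theorem tri_diag_ne_zero (hg : IsTri w g) (hgg' : g * g' = 1) :
    mat w g 0 0 ≠ 0 ∧ mat w g 1 1 ≠ 0 := by
  obtain ⟨h1, -, h2, -⟩ := tri_entries hg hgg'
  constructor
  · intro h
    rw [h, zero_mul] at h2
    exact zero_ne_one h2
  · intro h
    rw [h, zero_mul] at h1
    exact zero_ne_one h1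

/-- Conjugation by a triangular automorphism preserves `W0 w` and multiplies the coordinate
by the quotient of the diagonal entries. -/
theorem tri_conj_W0 (hg : IsTri w g) (hgg' : g * g' = 1) {f : Module.End k V}
    (hf : f ∈ W0 w) :
    g * f * g' ∈ W0 w ∧
      mat w (g * f * g') 0 1 = mat w g 0 0 / mat w g 1 1 * mat w f 0 1 := by
  obtain ⟨h1, h2, h3, h4⟩ := tri_entries hg hgg'
  obtain ⟨hz0, hz1⟩ := tri_diag_ne_zero hg hgg'
  have h10 := (isTri_iff w g).mp hg
  obtain ⟨f00, f10, f11⟩ := (mem_W0_iff_mat w f).mp hf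
  have key : ∀ i j, mat w (g * f * g') i j =
      (mat w g i 0 * mat w f 0 0 + mat w g i 1 * mat w f 1 0) * mat w g' 0 j +
        (mat w g i 0 * mat w f 0 1 + mat w g i 1 * mat w f 1 1) * mat w g' 1 j := by
    intro i j
    rw [mat_mul, mat_mul, mul_apply_two, mul_apply_two, mul_apply_two]
  refine ⟨(mem_W0_iff_mat w _).mpr ⟨?_, ?_, ?_⟩, ?_⟩
  · rw [key, f00, f10, f11, h2]; ring
  · rw [key, f00, f10, f11, h2]; ring
  · rw [key, f00, f10, f11, h10]; ring
  · rw [key, f00, f10, f11]
    have : mat w g' 1 1 = (mat w g 1 1)⁻¹ := eq_inv_of_mul_eq_one_right h1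
    rw [this]
    field_simp
    ring

/-- Conjugating a triangular endomorphism by a triangular automorphism changes it by an
element of `W0 w`. -/
theorem tri_conj_sub_mem_W0 (hg : IsTri w g) (hgg' : g * g' = 1) {m : Module.End k V}
    (hm : IsTri w m) : g * m * g' - m ∈ W0 w := by
  obtain ⟨h1, h2, h3, h4⟩ := tri_entries hg hgg'
  have h10 := (isTri_iff w g).mp hg
  have m10 := (isTri_iff w m).mp hm
  have key : ∀ i j, mat w (g * m * g' - m) i j =
      (mat w g i 0 * mat w m 0 0 + mat w g i 1 * mat w m 1 0) * mat w g' 0 j +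
        (mat w g i 0 * mat w m 0 1 + mat w g i 1 * mat w m 1 1) * mat w g' 1 j - mat w m i j := by
    intro i j
    rw [mat, map_sub, Matrix.sub_apply]
    congr 1
    rw [← mat, mat_mul, mat_mul, mul_apply_two, mul_apply_two, mul_apply_two]
  refine (mem_W0_iff_mat w _).mpr ⟨?_, ?_, ?_⟩
  · rw [key, m10, h2]
    linear_combination mat w m 0 0 * h3
  · rw [key, m10, h2, h10]; ring
  · rw [key, m10, h10]
    linear_combination mat w m 1 1 * h1

end Inverse

/-- An element of `W0 w` is determined by its upper right entry. -/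
theorem W0_eq_zero_of_entry {f : Module.End k V} (hf : f ∈ W0 w) (h : mat w f 0 1 = 0) :
    f = 0 := by
  obtain ⟨f00, f10, f11⟩ := (mem_W0_iff_mat w f).mp hf
  apply mat_injective w
  ext i j
  fin_cases i <;> fin_cases j
  · simpa using f00
  · simpa using h
  · simpa using f10
  · simpa using f11

end Fermat.Agent.S56.SO
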