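/-
S56, wall W3c, seat SO-N (owner: helper25): the counting argument.

`w` a basis of `V = ρbar.V` which is triangular for `ρbar` at `P₀ = primeLocalPlace p`
(`S59.SO.SOTri`).  `Zw` = the level-constant local cocycles of `ad⁰ρbar` with values in `W0 w`;
`Lw` = their classes in `H¹(G_{ℚ_p}, ad⁰ρbar)`.  Then `#Lw ≤ |k| · #H⁰(G_{ℚ_p}, ad⁰ρbar)`:
* `Zw` embeds into `twZ p ω`, `ω = x / z` the quotient of the diagonal characters, so `#Zw ≤ |k|³`
  (`twZ_card_le`);
* the coboundaries of the trace-zero triangular endomorphisms `[[a, b], [0, -a]]` lie in `Zw` and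
  have class `0`; there are at least `|k|² / #H⁰` of them.
-/
import Fermat.Agent.S56.W3.SO.Tri
import Fermat.Agent.S56.W3.SO.Kummer
import Fermat.Agent.F4.HyperLES

set_option autoImplicit false

namespace Fermat.Agent.S56.SO

open Fermat.Agent.F4 ExtCitation Matrix

/-! ### The kernel of `ρbar` is a level -/

/-- A normal subgroup of `G_ℚ` containing the fixing subgroup of a finite extension is a level. -/
theorem mem_levelsAll_of_normal (K : Subgroup GQ) [hK : K.Normal]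
    (F₀ : IntermediateField ℚ (AlgebraicClosure ℚ)) [FiniteDimensional ℚ F₀]
    (hF₀ : F₀.fixingSubgroup ≤ K) : K ∈ levelsAll.sets := by
  have := isGalois_Qbar
  have hopen : IsOpen (K : Set GQ) :=
    Subgroup.isOpen_mono hF₀ (IntermediateField.fixingSubgroup_isOpen F₀)
  have hclosed : IsClosed (K : Set GQ) := Subgroup.isClosed_of_isOpen K hopen
  let Kc : ClosedSubgroup GQ := ⟨K, hclosed⟩
  have hfix : (IntermediateField.fixedField K).fixingSubgroup = K :=
    InfiniteGalois.fixingSubgroup_fixedField Kc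
  have hle : IntermediateField.fixedField K ≤ F₀ := by
    have h1 : IntermediateField.fixedField K ≤
        IntermediateField.fixedField F₀.fixingSubgroup := by
      intro x hx
      rw [IntermediateField.mem_fixedField_iff] at hx ⊢
      exact fun σ hσ => hx σ (hF₀ hσ)
    rwa [InfiniteGalois.fixedField_fixingSubgroup] at h1
  have hfd : FiniteDimensional ℚ (IntermediateField.fixedField K) :=
    FiniteDimensional.of_injective (IntermediateField.inclusion hle).toLinearMap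
      (IntermediateField.inclusion_injective hle)
  refine ⟨IntermediateField.fixedField K, hfd, ?_, hfix.symm⟩
  intro σ x hx
  rw [IntermediateField.mem_fixedField_iff] at hx ⊢
  intro τ hτ
  have h2 : σ⁻¹ * τ * σ ∈ K := by
    have := hK.conj_mem τ hτ σ⁻¹
    simpa using this
  have h3 := hx _ h2
  have h4 : σ ((σ⁻¹ * τ * σ) x) = τ (σ x) := by
    show σ (σ⁻¹ (τ (σ x))) = τ (σ x)
    show σ (σ.symm (τ (σ x))) = τ (σ x)
    simp
  rw [← h4, h3]

variable {k : Type} [Field k]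

/-- The kernel of a residual representation is a level. -/
theorem ker_mem_levelsAll (ρbar : ResidualGaloisRep k) : ρbar.ρ.ker ∈ levelsAll.sets := by
  obtain ⟨L, hL, h⟩ := ρbar.factorsThroughFiniteLevel
  have := hL
  refine mem_levelsAll_of_normal ρbar.ρ.ker L ?_
  intro σ hσ
  rw [MonoidHom.mem_ker]
  exact h σ (fun x hx => (IntermediateField.mem_fixingSubgroup_iff L σ).mp hσ x hx)

/-- `ad⁰ρbar` is smooth for the level structure of all finite Galois extensions. -/
theorem isSmooth_ad0_all (ρbar : ResidualGaloisRep k) : IsSmooth levelsAll (ad0 ρbar) := by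
  intro a
  refine ⟨ρbar.ρ.ker, ker_mem_levelsAll ρbar, fun g hg => ?_⟩
  have h1 : ρbar.ρ g = 1 := MonoidHom.mem_ker.mp hg
  have h2 : ρbar.ρ g⁻¹ = 1 := MonoidHom.mem_ker.mp (inv_mem hg)
  apply Subtype.ext
  show ρbar.ρ g * (a : ↥(ad0Sub ρbar)).1 * ρbar.ρ g⁻¹ = (a : ↥(ad0Sub ρbar)).1
  rw [h1, h2, one_mul, mul_one]

/-! ### The local module and the `W0`-valued cocycles -/

section Local

variable (p : ℕ) [Fact p.Prime] (ρbar : ResidualGaloisRep k)

/-- `ad⁰ρbar` as a module over the local group at `p`. -/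
noncomputable abbrev Mloc : Rep k (Gp p) := locRep (ad0 ρbar) (pPrime p)

/-- The underlying endomorphism of an element of `ad⁰ρbar`. -/
noncomputable def toEnd : (ad0 ρbar) →ₗ[k] Module.End k ρbar.V := (ad0Sub ρbar).subtype

theorem toEnd_injective : Function.Injective (toEnd ρbar) := Subtype.val_injective

theorem toEnd_ρ (σ : GQ) (x : ad0 ρbar) :
    toEnd ρbar ((ad0 ρbar).ρ σ x) = ρbar.ρ σ * toEnd ρbar x * ρbar.ρ σ⁻¹ := rfl

theorem trace_toEnd (x : ad0 ρbar) : LinearMap.trace k ρbar.V (toEnd ρbar x) = 0 := x.2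

theorem Mloc_ρ (γ : Gp p) (x : Mloc p ρbar) :
    (Mloc p ρbar).ρ γ x = (ad0 ρbar).ρ (locp p γ) x := rfl

theorem ρ_mul_inv (σ : GQ) : ρbar.ρ σ * ρbar.ρ σ⁻¹ = 1 := by
  rw [← map_mul, mul_inv_cancel, map_one]

theorem locp_mem_decomposition (γ : Gp p) :
    locp p γ ∈ (primeLocalPlace (pPrime p)).decompositionSubgroup ℚ :=
  localGaloisToGlobal_mem_decompositionSubgroup p γ

theorem isSmooth_Mloc : IsSmooth (locLevelsAll (pPrime p)) (Mloc p ρbar) := by
  intro a
  obtain ⟨U, hU, h⟩ := isSmooth_ad0_all ρbar a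
  exact ⟨U.comap (primeLocalToGlobal (pPrime p)), ⟨U, hU, rfl⟩, fun g hg => h _ hg⟩

variable (w : Module.Basis (Fin 2) k ρbar.V)

/-- The level-constant local cocycles with values in `W0 w`. -/
def Zw : Submodule k ↥(Z1 (locLevelsAll (pPrime p)) (Mloc p ρbar)) where
  carrier := {c | ∀ γ : Gp p, toEnd ρbar ((c : Gp p → Mloc p ρbar) γ) ∈ W0 w}
  add_mem' := by
    intro c c' hc hc' γ
    have : toEnd ρbar (((c + c' : ↥(Z1 (locLevelsAll (pPrime p)) (Mloc p ρbar))) :
        Gp p → Mloc p ρbar) γ) =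
        toEnd ρbar ((c : Gp p → Mloc p ρbar) γ) + toEnd ρbar ((c' : Gp p → Mloc p ρbar) γ) :=
      (toEnd ρbar).map_add ((c : Gp p → Mloc p ρbar) γ) ((c' : Gp p → Mloc p ρbar) γ)
    rw [this]
    exact (W0 w).add_mem (hc γ) (hc' γ)
  zero_mem' := fun γ => (W0 w).zero_mem
  smul_mem' := by
    intro a c hc γ
    have : toEnd ρbar (((a • c : ↥(Z1 (locLevelsAll (pPrime p)) (Mloc p ρbar))) :
        Gp p → Mloc p ρbar) γ) = a • toEnd ρbar ((c : Gp p → Mloc p ρbar) γ) :=
      (toEnd ρbar).map_smul a ((c : Gp p → Mloc p ρbar) γ)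
    rw [this]
    exact (W0 w).smul_mem a (hc γ)

theorem mem_Zw {c : ↥(Z1 (locLevelsAll (pPrime p)) (Mloc p ρbar))} :
    c ∈ Zw p ρbar w ↔ ∀ γ : Gp p, toEnd ρbar ((c : Gp p → Mloc p ρbar) γ) ∈ W0 w := Iff.rfl

/-- The class map restricted to the `W0`-valued cocycles. -/
noncomputable def classW : ↥(Zw p ρbar w) →+ H1loc (ad0 ρbar) (pPrime p) :=
  (H1smπ (locLevelsAll (pPrime p)) (Mloc p ρbar)).toAddMonoidHom.comp
    (Zw p ρbar w).subtype.toAddMonoidHom

/-- **The wall**: the classes of the `W0`-valued cocycles. -/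
noncomputable def Lw : AddSubgroup (H1loc (ad0 ρbar) (pPrime p)) := (classW p ρbar w).range

end Local

/-! ### The embedding of `Zw` into the twisted cocycles -/

section Embed

variable {p : ℕ} [Fact p.Prime] {ρbar : ResidualGaloisRep k}
  {w : Module.Basis (Fin 2) k ρbar.V}

theorem isTri_locp (hw : Fermat.Agent.S59.SO.SOTri ρbar.ρ p (primeLocalPlace (pPrime p)) w)
    (γ : Gp p) : IsTri w (ρbar.ρ (locp p γ)) :=
  hw.dec _ (locp_mem_decomposition p γ)

variable (p ρbar w) in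
/-- The quotient of the diagonal characters of `ρbar` on the local group. -/
noncomputable def omegaW (γ : Gp p) : k :=
  mat w (ρbar.ρ (locp p γ)) 0 0 / mat w (ρbar.ρ (locp p γ)) 1 1

theorem isCycLoc_omegaW (hw : Fermat.Agent.S59.SO.SOTri ρbar.ρ p (primeLocalPlace (pPrime p)) w)
    (hpk : (p : k) = 0) : IsCycLoc p (omegaW p ρbar w) := by
  intro γ a ha
  have h1 := hw.cyc _ (locp_mem_decomposition p γ) 1 a (fun μ hμ => ha μ (by rwa [pow_one] at hμ))
  rw [pow_one, hpk, Ideal.span_singleton_eq_bot.mpr rfl, Ideal.mem_bot, sub_eq_zero] at h1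
  obtain ⟨-, hz⟩ := tri_diag_ne_zero (isTri_locp hw γ) (ρ_mul_inv ρbar _)
  rw [omegaW, mat_apply, mat_apply, h1]
  rw [mat_apply] at hz
  field_simp

variable (p ρbar w) in
/-- The coordinate of a `W0`-valued cocycle. -/
noncomputable def coordW (c : ↥(Zw p ρbar w)) : Gp p → k :=
  fun γ => mat w (toEnd ρbar (((c : ↥(Z1 (locLevelsAll (pPrime p)) (Mloc p ρbar))) :
    Gp p → Mloc p ρbar) γ)) 0 1

theorem coordW_mem_twZ (hw : Fermat.Agent.S59.SO.SOTri ρbar.ρ p (primeLocalPlace (pPrime p)) w)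
    (c : ↥(Zw p ρbar w)) : coordW p ρbar w c ∈ twZ p (omegaW p ρbar w) := by
  refine ⟨?_, fun σ τ => ?_⟩
  · have hlc : IsLC₁ (locLevelsAll (pPrime p))
        ((c : ↥(Z1 (locLevelsAll (pPrime p)) (Mloc p ρbar))) : Gp p → Mloc p ρbar) := c.1.2.2
    exact hlc.comp (fun x => mat w (toEnd ρbar x) 0 1)
  · have hco := (groupCohomology.mem_cocycles₁_iff
      ((c : ↥(Z1 (locLevelsAll (pPrime p)) (Mloc p ρbar))) : Gp p → Mloc p ρbar)).mp c.1.2.1 σ τ
    have hW := tri_conj_W0 (isTri_locp hw σ) (ρ_mul_inv ρbar _) (c.2 τ)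
    show mat w (toEnd ρbar (((c : ↥(Z1 (locLevelsAll (pPrime p)) (Mloc p ρbar))) :
      Gp p → Mloc p ρbar) (σ * τ))) 0 1 = _
    rw [hco, map_add, Mloc_ρ, toEnd_ρ, mat, map_add, Matrix.add_apply, ← mat, ← mat, hW.2]
    rw [add_comm]
    rfl

theorem coordW_injective : Function.Injective (coordW p ρbar w) := by
  intro c c' h
  apply Subtype.ext
  apply Subtype.ext
  funext γ
  apply toEnd_injective ρbar
  have hγ := congrFun h γ
  have hsub : toEnd ρbar (((c : ↥(Z1 (locLevelsAll (pPrime p)) (Mloc p ρbar))) :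
      Gp p → Mloc p ρbar) γ) - toEnd ρbar (((c' : ↥(Z1 (locLevelsAll (pPrime p)) (Mloc p ρbar))) :
      Gp p → Mloc p ρbar) γ) = 0 := by
    apply W0_eq_zero_of_entry w ((W0 w).sub_mem (c.2 γ) (c'.2 γ))
    rw [mat, map_sub, Matrix.sub_apply, sub_eq_zero]
    exact hγ
  exact sub_eq_zero.mp hsub

/-- **`#Zw ≤ |k|³`.** -/
theorem card_Zw_le [Finite k] (hp2 : p ≠ 2) (hpk : (p : k) = 0)
    (hw : Fermat.Agent.S59.SO.SOTri ρbar.ρ p (primeLocalPlace (pPrime p)) w) :
    Finite ↥(Zw p ρbar w) ∧ Nat.card ↥(Zw p ρbar w) ≤ Nat.card k ^ 3 := by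
  obtain ⟨hfin, hcard⟩ := twZ_card_le p hp2 hpk (omegaW p ρbar w) (isCycLoc_omegaW hw hpk)
  let Φ : ↥(Zw p ρbar w) → ↥(twZ p (omegaW p ρbar w)) :=
    fun c => ⟨coordW p ρbar w c, coordW_mem_twZ hw c⟩
  have hΦ : Function.Injective Φ := fun c c' h =>
    coordW_injective (congrArg Subtype.val h)
  exact ⟨Finite.of_injective Φ hΦ, (Nat.card_le_card_of_injective Φ hΦ).trans hcard⟩

end Embed

/-! ### The coboundaries of the triangular trace-zero endomorphisms -/

section Cob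

variable {p : ℕ} [Fact p.Prime] {ρbar : ResidualGaloisRep k}
  (w : Module.Basis (Fin 2) k ρbar.V)

/-- The endomorphism with matrix `[[a, b], [0, -a]]`. -/
noncomputable def triEnd : k × k →+ Module.End k ρbar.V where
  toFun ab := (LinearMap.toMatrix w w).symm (ab.1 • !![1, 0; 0, -1] + ab.2 • !![0, 1; 0, 0])
  map_zero' := by
    show (LinearMap.toMatrix w w).symm ((0 : k) • !![1, 0; 0, -1] + (0 : k) • !![0, 1; 0, 0]) = 0
    rw [zero_smul, zero_smul, add_zero, map_zero]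
  map_add' ab ab' := by
    show (LinearMap.toMatrix w w).symm
        ((ab.1 + ab'.1) • !![1, 0; 0, -1] + (ab.2 + ab'.2) • !![0, 1; 0, 0]) =
      (LinearMap.toMatrix w w).symm (ab.1 • !![1, 0; 0, -1] + ab.2 • !![0, 1; 0, 0]) +
        (LinearMap.toMatrix w w).symm (ab'.1 • !![1, 0; 0, -1] + ab'.2 • !![0, 1; 0, 0])
    rw [← map_add, add_smul, add_smul]
    congr 1
    abel

theorem mat_triEnd (ab : k × k) : mat w (triEnd w ab) = !![ab.1, ab.2; 0, -ab.1] := by
  have h : mat w (triEnd w ab) = ab.1 • !![1, 0; 0, -1] + ab.2 • !![0, 1; 0, 0] :=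
    LinearEquiv.apply_symm_apply _ _
  rw [h]
  ext i j
  fin_cases i <;> fin_cases j <;> simp

theorem isTri_triEnd (ab : k × k) : IsTri w (triEnd w ab) := by
  rw [isTri_iff, mat_triEnd]
  rfl

theorem trace_triEnd (ab : k × k) : LinearMap.trace k ρbar.V (triEnd w ab) = 0 := by
  rw [LinearMap.trace_eq_matrix_trace k w, ← mat, mat_triEnd, Matrix.trace_fin_two]
  simp

theorem triEnd_injective : Function.Injective (triEnd w : k × k → Module.End k ρbar.V) := by
  intro ab ab' h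
  have h1 := congrArg (mat w) h
  rw [mat_triEnd, mat_triEnd] at h1
  have e0 := congrFun (congrFun h1 0) 0
  have e1 := congrFun (congrFun h1 0) 1
  simp at e0 e1
  exact Prod.ext e0 e1

/-- `[[a, b], [0, -a]]` as an element of `ad⁰ρbar`. -/
noncomputable def triAd : k × k →+ (ad0 ρbar) where
  toFun ab := (⟨triEnd w ab, trace_triEnd w ab⟩ : ↥(ad0Sub ρbar))
  map_zero' := Subtype.ext (map_zero (triEnd w))
  map_add' x y := Subtype.ext (map_add (triEnd w) x y)

theorem toEnd_triAd (ab : k × k) : toEnd ρbar (triAd w ab) = triEnd w ab := rfl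

theorem triAd_injective : Function.Injective (triAd w : k × k → ad0 ρbar) := fun ab ab' h =>
  triEnd_injective w (congrArg (toEnd ρbar) h)

variable {w}

/-- The coboundary of `triAd ab` as a `W0`-valued cocycle. -/
noncomputable def cobW (hw : Fermat.Agent.S59.SO.SOTri ρbar.ρ p (primeLocalPlace (pPrime p)) w) :
    k × k →+ ↥(Zw p ρbar w) where
  toFun ab := ⟨⟨δ0 (Mloc p ρbar) (triAd w ab),
      groupCohomology.d₀₁_apply_mem_cocycles₁ _, isLC₁_δ0 (isSmooth_Mloc p ρbar) _⟩, fun γ => by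
    show toEnd ρbar ((Mloc p ρbar).ρ γ (triAd w ab) - triAd w ab) ∈ W0 w
    rw [map_sub, Mloc_ρ, toEnd_ρ, toEnd_triAd]
    exact tri_conj_sub_mem_W0 (isTri_locp hw γ) (ρ_mul_inv ρbar _) (isTri_triEnd w ab)⟩
  map_zero' := by
    apply Subtype.ext
    apply Subtype.ext
    show δ0 (Mloc p ρbar) (triAd w 0) = 0
    rw [map_zero, map_zero]
  map_add' _ _ := by
    apply Subtype.ext
    apply Subtype.ext
    show δ0 (Mloc p ρbar) (triAd w (_ + _)) =
      δ0 (Mloc p ρbar) (triAd w _) + δ0 (Mloc p ρbar) (triAd w _)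
    rw [map_add, map_add]

theorem cobW_apply (hw : Fermat.Agent.S59.SO.SOTri ρbar.ρ p (primeLocalPlace (pPrime p)) w)
    (ab : k × k) (γ : Gp p) :
    (((cobW hw ab : ↥(Zw p ρbar w)) : ↥(Z1 (locLevelsAll (pPrime p)) (Mloc p ρbar))) :
      Gp p → Mloc p ρbar) γ = (ad0 ρbar).ρ (locp p γ) (triAd w ab) - triAd w ab := rfl

theorem range_cobW_le_ker (hw : Fermat.Agent.S59.SO.SOTri ρbar.ρ p (primeLocalPlace (pPrime p)) w) :
    (cobW hw).range ≤ (classW p ρbar w).ker := by
  rintro _ ⟨ab, rfl⟩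
  rw [AddMonoidHom.mem_ker]
  show H1smπ (locLevelsAll (pPrime p)) (Mloc p ρbar)
    ((cobW hw ab : ↥(Zw p ρbar w)) : ↥(Z1 (locLevelsAll (pPrime p)) (Mloc p ρbar))) = 0
  rw [H1smπ, Submodule.mkQ_apply, Submodule.Quotient.mk_eq_zero, Submodule.mem_comap]
  exact ⟨triAd w ab, rfl⟩

theorem card_ker_cobW_le [Finite k]
    (hw : Fermat.Agent.S59.SO.SOTri ρbar.ρ p (primeLocalPlace (pPrime p)) w) :
    Nat.card ↥(cobW hw).ker ≤ Nat.card ↥(H0loc (ad0 ρbar) (pPrime p)) := by
  have : Finite (ad0 ρbar) := Module.finite_of_finite k (M := ↥(ad0Sub ρbar))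
  let Ψ : ↥(cobW hw).ker → ↥(H0loc (ad0 ρbar) (pPrime p)) := fun ab =>
    ⟨triAd w ab.1, fun h => by
      have h1 : cobW hw ab.1 = 0 := AddMonoidHom.mem_ker.mp ab.2
      have h2 := cobW_apply hw ab.1 h
      rw [h1] at h2
      exact (sub_eq_zero.mp h2.symm)⟩
  have hΨ : Function.Injective Ψ := by
    intro ab ab' h
    exact Subtype.ext (triAd_injective w (congrArg Subtype.val h))
  exact Nat.card_le_card_of_injective Ψ hΨ

/-- **(N)** the counting argument: the wall `Lw` has at most `|k| · #H⁰` elements. -/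
theorem card_Lw_le [Finite k] (hp2 : p ≠ 2) (hpk : (p : k) = 0)
    (hw : Fermat.Agent.S59.SO.SOTri ρbar.ρ p (primeLocalPlace (pPrime p)) w) :
    Finite ↥(Lw p ρbar w) ∧
      Nat.card ↥(Lw p ρbar w) ≤ Nat.card k * Nat.card ↥(H0loc (ad0 ρbar) (pPrime p)) := by
  obtain ⟨hfin, hcard⟩ := card_Zw_le hp2 hpk hw
  have : Finite (ad0 ρbar) := Module.finite_of_finite k (M := ↥(ad0Sub ρbar))
  have hLfin : Finite ↥(Lw p ρbar w) := by
    rw [Lw]
    exact Finite.of_surjective (classW p ρbar w).rangeRestrict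
      (classW p ρbar w).rangeRestrict_surjective
  refine ⟨hLfin, ?_⟩
  -- `#Zw = #ker · #Lw`
  have e1 : Nat.card ↥(classW p ρbar w).ker * Nat.card ↥(Lw p ρbar w) =
      Nat.card ↥(Zw p ρbar w) := by
    rw [Lw, ← AddSubgroup.index_ker]
    exact AddSubgroup.card_mul_index _
  -- `|k|² = #ker(cob) · #range(cob)`
  have e2 : Nat.card ↥(cobW hw).ker * Nat.card ↥(cobW hw).range = Nat.card k ^ 2 := by
    rw [← AddSubgroup.index_ker, AddSubgroup.card_mul_index, Nat.card_prod, pow_two]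
  have e3 : Nat.card ↥(cobW hw).range ≤ Nat.card ↥(classW p ρbar w).ker :=
    AddSubgroup.card_le_of_le (range_cobW_le_ker hw)
  have e4 := card_ker_cobW_le hw
  have hq : 0 < Nat.card k := Nat.card_pos
  set q := Nat.card k
  set L := Nat.card ↥(Lw p ρbar w)
  set H := Nat.card ↥(H0loc (ad0 ρbar) (pPrime p))
  set K := Nat.card ↥(classW p ρbar w).ker
  set A := Nat.card ↥(cobW hw).ker
  set B := Nat.card ↥(cobW hw).range
  set Z := Nat.card ↥(Zw p ρbar w)
  have h5 : L * q ^ 2 ≤ q ^ 2 * (q * H) := by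
    calc L * q ^ 2 = L * (A * B) := by rw [e2]
      _ ≤ L * (H * K) := Nat.mul_le_mul_left _ (Nat.mul_le_mul e4 e3)
      _ = H * (K * L) := by ring
      _ = H * Z := by rw [e1]
      _ ≤ H * q ^ 3 := Nat.mul_le_mul_left _ hcard
      _ = q ^ 2 * (q * H) := by ring
  have h6 : q ^ 2 * L ≤ q ^ 2 * (q * H) := by rwa [mul_comm] at h5
  exact Nat.le_of_mul_le_mul_left h6 (pow_pos hq 2)

end Cob

end Fermat.Agent.S56.SO
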